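import Mathlib

set_option autoImplicit false

namespace Fermat.Agent.S57

open RingTheory.Sequence
open scoped Pointwise

/-- Artinian-ness transfers backwards along a ring homomorphism `f : R → S`: if the `S`-module
`M` is, as an `R`-module through `f`, isomorphic to `M₀`, and `M₀ / I M₀` is Artinian over `R`,
then `M / f(I) M` is Artinian over `S`. -/
theorem isArtinian_quot_map_smul_top {R S : Type*} [CommRing R] [CommRing S] (f : R →+* S)
    (I : Ideal R)
    {M₀ M : Type*} [AddCommGroup M₀] [Module R M₀] [AddCommGroup M] [Module S M]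
    (e : M₀ ≃+ M) (he : ∀ (r : R) (x : M₀), e (r • x) = f r • e x)
    (h : IsArtinian R (M₀ ⧸ (I • ⊤ : Submodule R M₀))) :
    IsArtinian S (M ⧸ (I.map f • ⊤ : Submodule S M)) := by
  let _ : Algebra R S := f.toAlgebra
  let _ : Module R M := Module.compHom M f
  have : IsScalarTower R S M := ⟨fun r s x => by
    change (f r * s) • x = f r • (s • x); exact mul_smul _ _ _⟩
  let e' : M₀ ≃ₗ[R] M := { e with map_smul' := fun r x => he r x }
  have h1 : IsArtinian R (M ⧸ (I • ⊤ : Submodule R M)) := by
    have eq : (M₀ ⧸ (I • ⊤ : Submodule R M₀)) ≃ₗ[R] (M ⧸ (I • ⊤ : Submodule R M)) :=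
      Submodule.Quotient.equiv _ _ e' (by
        rw [Submodule.map_smul'', Submodule.map_top, LinearEquiv.range])
    exact isArtinian_of_linearEquiv eq
  have h2 : ((I.map (algebraMap R S) • (⊤ : Submodule S M)).restrictScalars R)
      = I • (⊤ : Submodule R M) := by
    rw [Ideal.smul_restrictScalars, Submodule.restrictScalars_top]
  have h3 : IsArtinian R (M ⧸ (I.map (algebraMap R S) • (⊤ : Submodule S M))) := by
    have eq1 := Submodule.Quotient.restrictScalarsEquiv R
      (I.map (algebraMap R S) • (⊤ : Submodule S M))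
    have eq2 := Submodule.quotEquivOfEq _ _ h2
    exact isArtinian_of_linearEquiv (eq2.symm.trans eq1)
  exact isArtinian_of_tower R h3

/-- For a maximal ideal `m` and a finite module `F`, the quotient `F / m F` is Artinian. -/
theorem isArtinian_quot_maximal_smul_top {A : Type*} [CommRing A] (m : Ideal A) [m.IsMaximal]
    (F : Type*) [AddCommGroup F] [Module A F] [Module.Finite A F] :
    IsArtinian A (F ⧸ (m • ⊤ : Submodule A F)) := by
  let _ : Field (A ⧸ m) := Ideal.Quotient.field m
  have : Module.Finite (A ⧸ m) (F ⧸ (m • ⊤ : Submodule A F)) :=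
    Module.Finite.of_restrictScalars_finite A (A ⧸ m) _
  have : IsArtinian (A ⧸ m) (F ⧸ (m • ⊤ : Submodule A F)) := inferInstance
  exact isArtinian_of_surjective_algebraMap (S := A) (R := A ⧸ m) Ideal.Quotient.mk_surjective

end Fermat.Agent.S57
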