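import Fermat.Agent.S57.CommAlg
import Fermat.Agent.S57.Transfer

set_option autoImplicit false

namespace Fermat.Agent.S57

open RingTheory.Sequence
open scoped Pointwise

/-- Let `A` be a Noetherian local ring whose maximal ideal is generated by a regular sequence
`ts`, and let `φ : A → A` be a ring homomorphism sending `ts` into the maximal ideal.
If a finite `A`-module `N` is free of finite rank as an `A`-module through `φ`,
then `N` is free over `A`. -/
theorem free_of_free_via_ringHom
    {A : Type} [CommRing A] [IsLocalRing A] [IsNoetherianRing A]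
    (ts : List A) (hreg : IsRegular A ts)
    (hmax : Ideal.ofList ts = IsLocalRing.maximalIdeal A)
    (φ : A →+* A) (hφ : ∀ t ∈ ts, φ t ∈ IsLocalRing.maximalIdeal A)
    {N : Type} [AddCommGroup N] [Module A N] [Module.Finite A N] [Nontrivial N]
    {d : ℕ} (e : (Fin d → A) ≃+ N) (he : ∀ (a : A) (c : Fin d → A), e (a • c) = φ a • e c) :
    Module.Free A N := by
  have hmaxI : (Ideal.ofList ts).IsMaximal := by
    rw [hmax]; infer_instance
  have hF : IsWeaklyRegular (Fin d → A) ts := by
    have h1 := hreg.toIsWeaklyRegular.isWeaklyRegular_lTensor (M₂ := Fin d → A)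
    exact ((TensorProduct.rid A (Fin d → A)).isWeaklyRegular_congr ts).mp h1
  have hN : IsWeaklyRegular N (ts.map φ) :=
    (AddEquiv.isWeaklyRegular_congr (e := e)
      (List.forall₂_map_right_iff.mpr <| List.forall₂_same.mpr fun a _ c => he a c)).mp hF
  have hmem : ∀ y ∈ ts.map φ, y ∈ IsLocalRing.maximalIdeal A := by
    intro y hy
    rw [List.mem_map] at hy
    obtain ⟨t, ht, rfl⟩ := hy
    exact hφ t ht
  have hfl : IsFiniteLength A (N ⧸ (Ideal.ofList (ts.map φ) • (⊤ : Submodule A N))) := by
    rw [isFiniteLength_iff_isNoetherian_isArtinian]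
    have : IsNoetherian A N := isNoetherian_of_isNoetherianRing_of_finite _ _
    refine ⟨inferInstance, ?_⟩
    rw [← Ideal.map_ofList φ ts]
    exact isArtinian_quot_map_smul_top φ (Ideal.ofList ts) e he
      (isArtinian_quot_maximal_smul_top _ _)
  exact free_of_regular_of_isFiniteLength ts hreg hmax (ts.map φ) hN hmem
    (List.length_map _) hfl

end Fermat.Agent.S57
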