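import Mathlib

set_option autoImplicit false

namespace Fermat.Agent.S57

open RingTheory.Sequence
open scoped Pointwise

section PS

variable {S : Type*} [CommRing S]

theorem smul_top_toAddSubgroup_eq_ker :
    ((PowerSeries.X : PowerSeries S) • (⊤ : Submodule (PowerSeries S) (PowerSeries S))).toAddSubgroup
      = AddMonoidHom.ker (PowerSeries.constantCoeff (R := S)).toAddMonoidHom := by
  ext f
  simp only [Submodule.mem_toAddSubgroup, AddMonoidHom.mem_ker, RingHom.toAddMonoidHom_eq_coe,
    AddMonoidHom.coe_coe]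
  rw [Submodule.mem_smul_pointwise_iff_exists, ← PowerSeries.X_dvd_iff]
  constructor
  · rintro ⟨g, -, rfl⟩
    exact ⟨g, rfl⟩
  · rintro ⟨g, rfl⟩
    exact ⟨g, trivial, rfl⟩

/-- The additive equivalence `S⟦X⟧ ⧸ X • ⊤ ≃+ S` given by the constant coefficient. -/
noncomputable def quotXAddEquiv :
    QuotSMulTop (PowerSeries.X : PowerSeries S) (PowerSeries S) ≃+ S :=
  (QuotientAddGroup.quotientAddEquivOfEq smul_top_toAddSubgroup_eq_ker).trans
    (QuotientAddGroup.quotientKerEquivOfSurjective
      (PowerSeries.constantCoeff (R := S)).toAddMonoidHom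
      (fun s => ⟨PowerSeries.C s, by simp⟩))

theorem quotXAddEquiv_mk (f : PowerSeries S) :
    quotXAddEquiv (Submodule.Quotient.mk f) = PowerSeries.constantCoeff f := rfl

theorem isRegular_powerSeries {ss : List S} (h : IsRegular S ss) :
    IsRegular (PowerSeries S) (PowerSeries.X :: ss.map (PowerSeries.C (R := S))) := by
  refine IsRegular.cons ?_ ?_
  · intro a b hab
    exact PowerSeries.X_mul_cancel hab
  · refine (AddEquiv.isRegular_congr (e := quotXAddEquiv (S := S)) ?_).mpr h
    refine List.forall₂_map_left_iff.mpr (List.forall₂_same.mpr fun s _ x => ?_)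
    induction x using Submodule.Quotient.induction_on with
    | _ f =>
      change quotXAddEquiv (Submodule.Quotient.mk (PowerSeries.C s * f))
        = s * quotXAddEquiv (Submodule.Quotient.mk f)
      rw [quotXAddEquiv_mk, quotXAddEquiv_mk, map_mul, PowerSeries.constantCoeff_C]

theorem ofList_powerSeries (ss : List S) :
    Ideal.ofList (PowerSeries.X :: ss.map (PowerSeries.C (R := S)))
      = Ideal.comap (PowerSeries.constantCoeff (R := S)) (Ideal.ofList ss) := by
  rw [Ideal.ofList_cons, ← Ideal.map_ofList]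
  apply le_antisymm
  · refine sup_le ?_ ?_
    · rw [Ideal.span_le]
      rintro _ rfl
      simp
    · rw [Ideal.map_le_iff_le_comap, Ideal.comap_comap]
      intro x hx
      simpa using hx
  · intro f hf
    rw [Ideal.mem_comap] at hf
    rw [f.eq_X_mul_shift_add_const]
    refine Ideal.add_mem _ ?_ ?_
    · exact Ideal.mem_sup_left (Ideal.mul_mem_right _ _ (Ideal.subset_span rfl))
    · exact Ideal.mem_sup_right (Ideal.mem_map_of_mem _ hf)

end PS

section Mv

theorem isRegular_map_ringEquiv {A B : Type*} [CommRing A] [CommRing B] (e : A ≃+* B) (l : List A) :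
    IsRegular A l ↔ IsRegular B (l.map e) :=
  AddEquiv.isRegular_congr (e := e.toAddEquiv) <|
    List.forall₂_map_right_iff.mpr <| List.forall₂_same.mpr fun r _ x => map_mul e r x

theorem mem_ofList_map_ringEquiv {A B : Type*} [CommRing A] [CommRing B] (e : A ≃+* B)
    (l : List A) (p : A) : p ∈ Ideal.ofList l ↔ e p ∈ Ideal.ofList (l.map e) := by
  have h1 : Ideal.ofList (l.map e) = Ideal.map (e : A →+* B) (Ideal.ofList l) :=
    (Ideal.map_ofList (e : A →+* B) l).symm
  rw [h1]
  constructor
  · intro h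
    exact Ideal.mem_map_of_mem (e : A →+* B) h
  · intro h
    have h2 := Ideal.mem_map_of_mem (e.symm : B →+* A) h
    rw [Ideal.map_map] at h2
    simpa using h2

variable {R : Type*} [CommRing R]

theorem constantCoeff_finSuccEquiv (n : ℕ) (p : MvPowerSeries (Fin (n + 1)) R) :
    MvPowerSeries.constantCoeff (PowerSeries.constantCoeff (MvPowerSeries.finSuccEquiv R n p))
      = MvPowerSeries.constantCoeff p := by
  have := MvPowerSeries.coeff_coeff_finSuccEquiv (R := R) p (k := 0) (x := 0)
  rw [Finsupp.cons_zero_zero] at this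
  simpa using this

theorem map_finSuccEquiv_list (rs : List R) (n : ℕ) :
    (List.ofFn (fun i : Fin (n + 1) => (MvPowerSeries.X i : MvPowerSeries (Fin (n + 1)) R))
        ++ rs.map MvPowerSeries.C).map (MvPowerSeries.finSuccEquiv R n).toRingEquiv
      = PowerSeries.X :: (List.ofFn (fun i : Fin n => (MvPowerSeries.X i : MvPowerSeries (Fin n) R))
        ++ rs.map MvPowerSeries.C).map PowerSeries.C := by
  rw [List.ofFn_succ]
  simp [List.map_ofFn, Function.comp_def]

theorem mvPowerSeries_regular_zero (rs : List R) (h : IsRegular R rs) :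
    IsRegular (MvPowerSeries (Fin 0) R)
      (List.ofFn (fun i : Fin 0 => (MvPowerSeries.X i : MvPowerSeries (Fin 0) R))
        ++ rs.map MvPowerSeries.C) ∧
    Ideal.ofList (List.ofFn (fun i : Fin 0 => (MvPowerSeries.X i : MvPowerSeries (Fin 0) R))
        ++ rs.map MvPowerSeries.C)
      = Ideal.comap MvPowerSeries.constantCoeff (Ideal.ofList rs) := by
  have hmap : rs.map (MvPowerSeries.isEmptyEquiv (Fin 0) R).symm.toRingEquiv
      = rs.map MvPowerSeries.C := rfl
  rw [List.ofFn_zero, List.nil_append]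
  refine ⟨?_, ?_⟩
  · rw [← hmap]
    exact (isRegular_map_ringEquiv _ rs).mp h
  · rw [← Ideal.map_ofList]
    ext x
    rw [Ideal.mem_comap]
    constructor
    · intro hx
      have : Ideal.map MvPowerSeries.C (Ideal.ofList rs)
          ≤ Ideal.comap (MvPowerSeries.constantCoeff (σ := Fin 0)) (Ideal.ofList rs) := by
        rw [Ideal.map_le_iff_le_comap, Ideal.comap_comap]
        intro y hy
        simpa using hy
      exact this hx
    · intro hx
      have hx' : x = MvPowerSeries.C (MvPowerSeries.constantCoeff x) :=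
        ((MvPowerSeries.isEmptyEquiv (Fin 0) R).left_inv x).symm
      rw [hx']
      exact Ideal.mem_map_of_mem _ hx

theorem mvPowerSeries_regular (rs : List R) (h : IsRegular R rs) (n : ℕ) :
    IsRegular (MvPowerSeries (Fin n) R)
      (List.ofFn (fun i : Fin n => (MvPowerSeries.X i : MvPowerSeries (Fin n) R))
        ++ rs.map MvPowerSeries.C) ∧
    Ideal.ofList (List.ofFn (fun i : Fin n => (MvPowerSeries.X i : MvPowerSeries (Fin n) R))
        ++ rs.map MvPowerSeries.C)
      = Ideal.comap MvPowerSeries.constantCoeff (Ideal.ofList rs) := by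
  induction n with
  | zero => exact mvPowerSeries_regular_zero rs h
  | succ n ih =>
    refine ⟨?_, ?_⟩
    · rw [isRegular_map_ringEquiv (MvPowerSeries.finSuccEquiv R n).toRingEquiv,
        map_finSuccEquiv_list]
      exact isRegular_powerSeries ih.1
    · ext p
      rw [mem_ofList_map_ringEquiv (MvPowerSeries.finSuccEquiv R n).toRingEquiv,
        map_finSuccEquiv_list, ofList_powerSeries, ih.2]
      simp only [Ideal.mem_comap]
      rw [show (MvPowerSeries.finSuccEquiv R n).toRingEquiv p = MvPowerSeries.finSuccEquiv R n p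
        from rfl, constantCoeff_finSuccEquiv]

end Mv

theorem maximalIdeal_mvPowerSeries {σ : Type*} {R : Type*} [CommRing R] [IsLocalRing R] :
    IsLocalRing.maximalIdeal (MvPowerSeries σ R)
      = Ideal.comap MvPowerSeries.constantCoeff (IsLocalRing.maximalIdeal R) := by
  ext f
  rw [Ideal.mem_comap, IsLocalRing.mem_maximalIdeal, IsLocalRing.mem_maximalIdeal,
    mem_nonunits_iff, mem_nonunits_iff, MvPowerSeries.isUnit_iff_constantCoeff]

theorem exists_regular_list (𝒪 : Type*) [CommRing 𝒪] [IsDomain 𝒪] [IsDiscreteValuationRing 𝒪]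
    (r : ℕ) :
    ∃ ϖ : 𝒪,
      IsRegular (MvPowerSeries (Fin r) 𝒪)
        (List.ofFn (fun i : Fin r => (MvPowerSeries.X i : MvPowerSeries (Fin r) 𝒪))
          ++ [MvPowerSeries.C ϖ]) ∧
      Ideal.ofList (List.ofFn (fun i : Fin r => (MvPowerSeries.X i : MvPowerSeries (Fin r) 𝒪))
          ++ [MvPowerSeries.C ϖ]) = IsLocalRing.maximalIdeal (MvPowerSeries (Fin r) 𝒪) := by
  obtain ⟨ϖ, hϖ⟩ := IsDiscreteValuationRing.exists_irreducible 𝒪
  have hmax : IsLocalRing.maximalIdeal 𝒪 = Ideal.span {ϖ} := hϖ.maximalIdeal_eq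
  have hmem : ϖ ∈ IsLocalRing.maximalIdeal 𝒪 := by
    rw [hmax]; exact Ideal.subset_span rfl
  have hreg : IsRegular 𝒪 [ϖ] := by
    refine IsRegular.of_isWeaklyRegular_of_mem_maximalIdeal 𝒪 ?_ ?_
    · intro x hx
      rw [List.mem_singleton] at hx
      rw [hx]; exact hmem
    · rw [isWeaklyRegular_singleton_iff]
      intro a b hab
      exact mul_left_cancel₀ hϖ.ne_zero hab
  obtain ⟨h1, h2⟩ := mvPowerSeries_regular [ϖ] hreg r
  refine ⟨ϖ, h1, ?_⟩
  rw [List.map_singleton] at h2
  rw [h2, maximalIdeal_mvPowerSeries, hmax, Ideal.ofList_singleton]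


end Fermat.Agent.S57
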