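import Fermat.Prelude.Def_Algebra_PatchingDatum
import Fermat.Agent.S57.Core
import Fermat.Agent.S57.PowerSeries

set_option autoImplicit false

namespace Fermat.Agent.S57

open RingTheory.Sequence
open scoped Pointwise

section Level

variable {𝒪 : Type} [CommRing 𝒪] {r : ℕ} {R : Type} [CommRing R] [Algebra 𝒪 R]
  {M : Type} [AddCommGroup M] [Module R M]

/-- The additive equivalence `(Fin d → A) ≃+ N` expressing that `N` is free over `A` via `φ`. -/
noncomputable def levelEquiv (L : Algebra.PatchingLevel 𝒪 r R M ⊥) :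
    (Fin L.d → MvPowerSeries (Fin r) 𝒪) ≃+ L.N :=
  AddEquiv.ofBijective
    (AddMonoidHom.mk' (fun c => ∑ i, L.φ (c i) • L.b i) (by
      intro c c'
      simp [add_smul, Finset.sum_add_distrib]))
    (by
      constructor
      · rw [injective_iff_map_eq_zero]
        intro c hc
        have := (L.b_rel c).mp hc
        funext i
        simpa using this i
      · intro x
        obtain ⟨c, hc⟩ := L.b_span x
        exact ⟨c, hc.symm⟩)

theorem levelEquiv_apply (L : Algebra.PatchingLevel 𝒪 r R M ⊥)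
    (c : Fin L.d → MvPowerSeries (Fin r) 𝒪) :
    levelEquiv L c = ∑ i, L.φ (c i) • L.b i := rfl

theorem levelEquiv_smul (L : Algebra.PatchingLevel 𝒪 r R M ⊥) (a : MvPowerSeries (Fin r) 𝒪)
    (c : Fin L.d → MvPowerSeries (Fin r) 𝒪) :
    levelEquiv L (a • c) = (L.φ : MvPowerSeries (Fin r) 𝒪 →+* MvPowerSeries (Fin r) 𝒪) a
      • levelEquiv L c := by
  simp [levelEquiv_apply, mul_smul, Finset.smul_sum]

theorem level_finite (L : Algebra.PatchingLevel 𝒪 r R M ⊥) :
    Module.Finite (MvPowerSeries (Fin r) 𝒪) L.N := by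
  have h : (⊤ : Submodule (MvPowerSeries (Fin r) 𝒪) L.N)
      = Submodule.span (MvPowerSeries (Fin r) 𝒪) (Set.range L.b) := by
    symm
    rw [eq_top_iff]
    intro x _
    obtain ⟨c, rfl⟩ := L.b_span x
    exact Submodule.sum_mem _ fun i _ =>
      Submodule.smul_mem _ _ (Submodule.subset_span (Set.mem_range_self i))
  exact Module.finite_def.mpr (h ▸ Submodule.fg_span (Set.finite_range _))

end Level

theorem level_free {𝒪 : Type} [CommRing 𝒪] [IsDomain 𝒪] [IsDiscreteValuationRing 𝒪]
    {r : ℕ} {R : Type} [CommRing R] [Algebra 𝒪 R]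
    {M : Type} [AddCommGroup M] [Module R M] [Nontrivial M]
    (L : Algebra.PatchingLevel 𝒪 r R M ⊥) :
    Module.Free (MvPowerSeries (Fin r) 𝒪) L.N := by
  have hfin := level_finite L
  have hnt : Nontrivial L.N := L.π_surjective.nontrivial
  have hRnt : Nontrivial R := Module.nontrivial R M
  obtain ⟨ϖ, hreg, hmax⟩ := exists_regular_list 𝒪 r
  have hker : RingHom.ker L.ψ ≤ IsLocalRing.maximalIdeal (MvPowerSeries (Fin r) 𝒪) :=
    IsLocalRing.le_maximalIdeal (RingHom.ker_ne_top _)
  refine free_of_free_via_ringHom _ hreg hmax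
    (L.φ : MvPowerSeries (Fin r) 𝒪 →+* MvPowerSeries (Fin r) 𝒪) ?_ (levelEquiv L)
    (fun a c => levelEquiv_smul L a c)
  intro t ht
  rw [List.mem_append, List.mem_ofFn, List.mem_singleton] at ht
  rcases ht with ⟨i, rfl⟩ | rfl
  · exact hker (by rw [RingHom.mem_ker]; exact L.ψ_φ_X i)
  · have h1 : L.φ (MvPowerSeries.C ϖ) = MvPowerSeries.C ϖ := L.φ.commutes ϖ
    have h2 : (MvPowerSeries.C ϖ : MvPowerSeries (Fin r) 𝒪)
        ∈ IsLocalRing.maximalIdeal (MvPowerSeries (Fin r) 𝒪) := by
      rw [← hmax]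
      exact Ideal.subset_span (List.mem_append_right _ (List.mem_singleton.mpr rfl))
    rw [← h1] at h2
    exact h2


end Fermat.Agent.S57
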