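import Mathlib

set_option autoImplicit false

namespace Fermat.Agent.S57

open CategoryTheory RingTheory.Sequence

/-- Over a Noetherian local ring whose maximal ideal is generated by a regular sequence `ts`,
every module of finite length has projective dimension at most `ts.length`. -/
theorem hasProjectiveDimensionLT_of_isFiniteLength
    {A : Type} [CommRing A] [IsLocalRing A] [IsNoetherianRing A]
    (ts : List A) (hts : IsRegular A ts)
    (hmax : Ideal.ofList ts = IsLocalRing.maximalIdeal A)
    (L : Type) [AddCommGroup L] [Module A L] (hL : IsFiniteLength A L) :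
    HasProjectiveDimensionLT (ModuleCat.of A L) (ts.length + 1) := by
  induction hL with
  | of_subsingleton =>
    rename_i M _ _ _
    have hz : Limits.IsZero (ModuleCat.of A M) :=
      ModuleCat.isZero_of_subsingleton _
    have := hz.hasProjectiveDimensionLT_zero
    exact hasProjectiveDimensionLT_of_ge _ 0 _ (Nat.zero_le _)
  | of_simple_quotient _ ih =>
    rename_i M _ _ N' hsimple hN'
    -- the simple quotient is isomorphic to `A ⧸ ofList ts`
    obtain ⟨I, hI, ⟨e⟩⟩ := isSimpleModule_iff_quot_maximal.mp hsimple
    have hIeq : I = Ideal.ofList ts := by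
      rw [hmax]
      exact IsLocalRing.eq_maximalIdeal hI
    subst hIeq
    have hpd := ModuleCat.projectiveDimension_quotient_eq_length.{0} ts hts
    have e' : (M ⧸ N') ≃ₗ[A] Shrink.{0} (A ⧸ Ideal.ofList ts) :=
      e.trans (Shrink.linearEquiv A _).symm
    have hpd' : projectiveDimension (ModuleCat.of A (M ⧸ N')) = ts.length := by
      rw [← hpd]
      exact ModuleCat.projectiveDimension_eq_of_linearEquiv.{0, 0}
        (M := ModuleCat.of A (M ⧸ N'))
        (N := ModuleCat.of A (Shrink.{0} (A ⧸ Ideal.ofList ts))) e'
    have h3 : HasProjectiveDimensionLT (ModuleCat.of A (M ⧸ N')) (ts.length + 1) := by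
      have : projectiveDimension (ModuleCat.of A (M ⧸ N')) ≤ ts.length := hpd'.le
      exact (projectiveDimension_le_iff _ _).mp this
    let f : M →ₗ[A] (M ⧸ N') := N'.mkQ
    have hf : Function.Surjective f := N'.mkQ_surjective
    have hS := LinearMap.shortExact_shortComplexKer hf
    have eker : N' ≃ₗ[A] LinearMap.ker f := LinearEquiv.ofEq _ _ (Submodule.ker_mkQ N').symm
    have h1 : HasProjectiveDimensionLT f.shortComplexKer.X₁ (ts.length + 1) :=
      hasProjectiveDimensionLT_of_iso (eker.toModuleIso) _
    exact hS.hasProjectiveDimensionLT_X₂ _ h1 h3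

theorem free_of_regular_of_isFiniteLength
    {A : Type} [CommRing A] [IsLocalRing A] [IsNoetherianRing A]
    (ts : List A) (hts : IsRegular A ts)
    (hmax : Ideal.ofList ts = IsLocalRing.maximalIdeal A)
    {N : Type} [AddCommGroup N] [Module A N] [Module.Finite A N] [Nontrivial N]
    (ys : List A) (hys : IsWeaklyRegular N ys)
    (hmem : ∀ y ∈ ys, y ∈ IsLocalRing.maximalIdeal A)
    (hlen : ys.length = ts.length)
    (hfl : IsFiniteLength A (N ⧸ (Ideal.ofList ys • (⊤ : Submodule A N)))) :
    Module.Free A N := by
  have h1 := ModuleCat.projectiveDimension_quotient_eq_add_length_of_isWeaklyRegular.{0}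
    (ModuleCat.of A N) ys hys hmem
  have h2 := hasProjectiveDimensionLT_of_isFiniteLength ts hts hmax _ hfl
  have h3 : projectiveDimension (ModuleCat.of A (N ⧸ (Ideal.ofList ys • (⊤ : Submodule A N))))
      ≤ ts.length := (projectiveDimension_le_iff _ _).mpr h2
  have h4 : projectiveDimension (ModuleCat.of A N) + (ys.length : ℕ) ≤ (ys.length : ℕ) := by
    rw [hlen]
    rw [hlen] at h1
    rw [← h1]
    exact h3
  have h5 : projectiveDimension (ModuleCat.of A N) ≤ (0 : ℕ) := by
    have := (ENat.WithBot.add_le_add_natCast_right_iff
      (a := projectiveDimension (ModuleCat.of A N)) (b := ((0 : ℕ) : WithBot ℕ∞)) (c := ys.length)).mp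
      (by simpa using h4)
    exact this
  have h6 : HasProjectiveDimensionLE (ModuleCat.of A N) 0 := (projectiveDimension_le_iff _ _).mp h5
  have h7 : Projective (ModuleCat.of A N) := (projective_iff_hasProjectiveDimensionLE_zero _).mpr h6
  have h8 : Module.Projective A N := by
    have := (IsProjective.iff_projective (R := A) (P := N)).mpr h7
    exact this
  exact Module.free_of_flat_of_isLocalRing


end Fermat.Agent.S57
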