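import Mathlib

set_option autoImplicit false

namespace Fermat.Agent.S57.H5

open CategoryTheory Abelian

universe u

/-- Over a local ring, a finite-length module has projective dimension `< n` as soon as the
residue field does. -/
theorem hasProjectiveDimensionLT_of_isFiniteLength {R : Type u} [CommRing R] [IsLocalRing R]
    (n : ℕ) (hk : HasProjectiveDimensionLT (ModuleCat.of R (IsLocalRing.ResidueField R)) n)
    (M : Type u) [AddCommGroup M] [Module R M] (hM : IsFiniteLength R M) :
    HasProjectiveDimensionLT (ModuleCat.of R M) n := by
  induction hM with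
  | of_subsingleton =>
    rename_i M _ _ _
    have hz : Limits.IsZero (ModuleCat.of R M) := ModuleCat.isZero_of_subsingleton _
    have := hz.hasProjectiveDimensionLT_zero
    exact hasProjectiveDimensionLT_of_ge _ 0 n (Nat.zero_le n)
  | of_simple_quotient hN ih =>
    rename_i M _ _ N hsimple
    -- the quotient is isomorphic to the residue field
    obtain ⟨I, hI, ⟨e⟩⟩ := isSimpleModule_iff_quot_maximal.mp hsimple
    have hIeq : I = IsLocalRing.maximalIdeal R := IsLocalRing.eq_maximalIdeal hI
    subst hIeq
    let f : M →ₗ[R] (M ⧸ N) := N.mkQ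
    have hf : Function.Surjective f := N.mkQ_surjective
    let S : ShortComplex (ModuleCat.{u} R) := f.shortComplexKer
    have hS : S.ShortExact := LinearMap.shortExact_shortComplexKer hf
    have h1 : HasProjectiveDimensionLT S.X₁ n := by
      have e1 : N ≃ₗ[R] LinearMap.ker f := LinearEquiv.ofEq _ _ (Submodule.ker_mkQ N).symm
      exact hasProjectiveDimensionLT_of_iso e1.toModuleIso n
    have h3 : HasProjectiveDimensionLT S.X₃ n := by
      have hk' : HasProjectiveDimensionLT
          (ModuleCat.of R (R ⧸ IsLocalRing.maximalIdeal R)) n := hk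
      exact hasProjectiveDimensionLT_of_iso e.symm.toModuleIso n
    exact hS.hasProjectiveDimensionLT_X₂ n h1 h3

end Fermat.Agent.S57.H5
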