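import Mathlib
import Fermat.Agent.S57.FiniteLength

set_option autoImplicit false

namespace Fermat.Agent.S57.H5

open CategoryTheory Abelian IsLocalRing RingTheory.Sequence

/-- Auslander–Buchsbaum-type freeness criterion, in the form needed for patching:
if the maximal ideal of the Noetherian local ring `P` is generated by a regular sequence `rs`,
and the finite `P`-module `N` admits a weakly regular sequence `rs'` of the same length inside the
maximal ideal with `N / rs' N` of finite length, then `N` is free. -/
theorem free_of_weaklyRegular {P : Type} [CommRing P] [IsLocalRing P] [IsNoetherianRing P]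
    (rs : List P) (hrs : IsRegular P rs) (hmax : Ideal.ofList rs = maximalIdeal P)
    (N : Type) [AddCommGroup N] [Module P N] [Module.Finite P N]
    (rs' : List P) (hlen : rs'.length = rs.length)
    (hreg : IsWeaklyRegular N rs') (hmem : ∀ x ∈ rs', x ∈ maximalIdeal P)
    (hfl : IsFiniteLength P (N ⧸ Ideal.ofList rs' • (⊤ : Submodule P N))) :
    Module.Free P N := by
  rcases subsingleton_or_nontrivial N with hN | hN
  · exact Module.Free.of_subsingleton P N
  -- projective dimension of the residue field
  have hk : HasProjectiveDimensionLT (ModuleCat.of P (ResidueField P)) (rs.length + 1) := by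
    have h1 := ModuleCat.projectiveDimension_quotient_eq_length.{0} rs hrs
    have e : Shrink.{0} (P ⧸ Ideal.ofList rs) ≃ₗ[P] ResidueField P :=
      (Shrink.linearEquiv P _).trans (Submodule.quotEquivOfEq _ _ hmax)
    have h2 : projectiveDimension (ModuleCat.of P (ResidueField P)) = rs.length := by
      rw [← h1]
      exact (projectiveDimension_eq_of_iso e.toModuleIso).symm
    have h3 : projectiveDimension (ModuleCat.of P (ResidueField P)) ≤ (rs.length : ℕ) := by
      rw [h2]
    exact (projectiveDimension_le_iff _ _).mp h3
  -- hence of the finite length quotient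
  have hq := hasProjectiveDimensionLT_of_isFiniteLength (rs.length + 1) hk _ hfl
  have hq' : projectiveDimension
      (ModuleCat.of P (N ⧸ Ideal.ofList rs' • (⊤ : Submodule P N))) ≤ (rs.length : ℕ) :=
    (projectiveDimension_le_iff _ _).mpr hq
  -- the regular sequence formula
  have hformula := ModuleCat.projectiveDimension_quotient_eq_add_length_of_isWeaklyRegular
    (ModuleCat.of P N) rs' hreg hmem
  rw [hformula, hlen] at hq'
  have h0 : projectiveDimension (ModuleCat.of P N) ≤ ((0 : ℕ) : WithBot ℕ∞) := by
    have : projectiveDimension (ModuleCat.of P N) + (rs.length : ℕ)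
        ≤ ((0 : ℕ) : WithBot ℕ∞) + (rs.length : ℕ) := by
      simpa using hq'
    exact ENat.WithBot.add_le_add_natCast_right_iff.mp this
  have hproj : HasProjectiveDimensionLE (ModuleCat.of P N) 0 :=
    (projectiveDimension_le_iff _ _).mp h0
  have hproj' : Projective (ModuleCat.of P N) :=
    (projective_iff_hasProjectiveDimensionLE_zero _).mpr hproj
  have hproj'' : Module.Projective P N := (IsProjective.iff_projective N).mpr hproj'
  exact Module.free_of_flat_of_isLocalRing

end Fermat.Agent.S57.H5
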