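import Mathlib

set_option autoImplicit false

namespace Fermat.Agent.S57

open RingTheory.Sequence

/-- The list `X 0, …, X (r-1), C ϖ` in `𝒪⟦X_0,…,X_{r-1}⟧`. -/
noncomputable def regSeq {𝒪 : Type} [CommRing 𝒪] (r : ℕ) (ϖ : 𝒪) :
    List (MvPowerSeries (Fin r) 𝒪) :=
  (List.ofFn fun i : Fin r => (MvPowerSeries.X i : MvPowerSeries (Fin r) 𝒪)) ++
    [MvPowerSeries.C ϖ]

theorem regSeq_length {𝒪 : Type} [CommRing 𝒪] (r : ℕ) (ϖ : 𝒪) :
    (regSeq r ϖ).length = r + 1 := by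
  simp [regSeq]

/-- The ideal generated by the variables `X i` with `i < j`. -/
noncomputable def varsIdeal (𝒪 : Type) [CommRing 𝒪] (r j : ℕ) : Ideal (MvPowerSeries (Fin r) 𝒪) :=
  Ideal.span {g | ∃ i : Fin r, i.val < j ∧ g = MvPowerSeries.X i}

theorem varsIdeal_mono {𝒪 : Type} [CommRing 𝒪] (r : ℕ) {j k : ℕ} (h : j ≤ k) :
    varsIdeal 𝒪 r j ≤ varsIdeal 𝒪 r k := by
  apply Ideal.span_mono
  rintro g ⟨i, hi, rfl⟩
  exact ⟨i, lt_of_lt_of_le hi h, rfl⟩

theorem coeff_eq_zero_of_mem_varsIdeal {𝒪 : Type} [CommRing 𝒪] {r j : ℕ}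
    {f : MvPowerSeries (Fin r) 𝒪} (hf : f ∈ varsIdeal 𝒪 r j) (m : Fin r →₀ ℕ)
    (hm : ∀ i : Fin r, i.val < j → m i = 0) : MvPowerSeries.coeff m f = 0 := by
  classical
  induction hf using Submodule.span_induction generalizing m with
  | mem g hg =>
    obtain ⟨i, hi, rfl⟩ := hg
    rw [MvPowerSeries.coeff_X, if_neg]
    rintro rfl
    have := hm i hi
    simp at this
  | zero => simp
  | add f g _ _ hf hg => rw [map_add, hf m hm, hg m hm, add_zero]
  | smul a f _ hf =>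
    rw [smul_eq_mul, MvPowerSeries.coeff_mul]
    refine Finset.sum_eq_zero fun p hp => ?_
    rw [Finset.HasAntidiagonal.mem_antidiagonal] at hp
    rw [hf p.2, mul_zero]
    intro i hi
    have h1 := hm i hi
    rw [← hp, Finsupp.add_apply] at h1
    omega

theorem mem_varsIdeal_of_coeff {𝒪 : Type} [CommRing 𝒪] {r : ℕ} (j : ℕ)
    (f : MvPowerSeries (Fin r) 𝒪)
    (hf : ∀ m : Fin r →₀ ℕ, (∀ i : Fin r, i.val < j → m i = 0) → MvPowerSeries.coeff m f = 0) :
    f ∈ varsIdeal 𝒪 r j := by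
  classical
  induction j generalizing f with
  | zero =>
    have : f = 0 := by
      ext m
      simpa using hf m (fun i hi => absurd hi (Nat.not_lt_zero _))
    rw [this]
    exact Ideal.zero_mem _
  | succ j ih =>
    by_cases hj : j < r
    · set i₀ : Fin r := ⟨j, hj⟩ with hi₀
      set h : MvPowerSeries (Fin r) 𝒪 :=
        fun m => if m i₀ = 0 then MvPowerSeries.coeff m f else 0 with hh
      have hcoeff : ∀ m, MvPowerSeries.coeff m h =
          if m i₀ = 0 then MvPowerSeries.coeff m f else 0 := fun m => rfl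
      have h1 : h ∈ varsIdeal 𝒪 r j := by
        apply ih
        intro m hm
        rw [hcoeff]
        split_ifs with h0
        · apply hf
          intro i hi
          rcases Nat.lt_succ_iff_lt_or_eq.mp hi with hlt | heq
          · exact hm i hlt
          · have : i = i₀ := Fin.ext heq
            rw [this]; exact h0
        · rfl
      have h2 : (MvPowerSeries.X i₀ : MvPowerSeries (Fin r) 𝒪) ∣ f - h := by
        rw [MvPowerSeries.X_dvd_iff]
        intro m hm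
        rw [map_sub, hcoeff, if_pos hm, sub_self]
      have h3 : f - h ∈ varsIdeal 𝒪 r (j + 1) := by
        obtain ⟨g, hg⟩ := h2
        rw [hg]
        exact Ideal.mul_mem_right _ _ (Ideal.subset_span ⟨i₀, Nat.lt_succ_self j, rfl⟩)
      have : f = (f - h) + h := by ring
      rw [this]
      exact Ideal.add_mem _ h3 (varsIdeal_mono r (Nat.le_succ j) h1)
    · apply varsIdeal_mono r (Nat.le_succ j)
      apply ih
      intro m hm
      apply hf
      intro i _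
      exact hm i (lt_of_lt_of_le i.isLt (not_lt.mp hj))

theorem mem_varsIdeal_iff {𝒪 : Type} [CommRing 𝒪] {r : ℕ} (j : ℕ)
    (f : MvPowerSeries (Fin r) 𝒪) :
    f ∈ varsIdeal 𝒪 r j ↔
      ∀ m : Fin r →₀ ℕ, (∀ i : Fin r, i.val < j → m i = 0) → MvPowerSeries.coeff m f = 0 :=
  ⟨fun hf m hm => coeff_eq_zero_of_mem_varsIdeal hf m hm, mem_varsIdeal_of_coeff j f⟩

theorem mem_varsIdeal_top_iff {𝒪 : Type} [CommRing 𝒪] {r : ℕ}
    (f : MvPowerSeries (Fin r) 𝒪) :
    f ∈ varsIdeal 𝒪 r r ↔ MvPowerSeries.constantCoeff f = 0 := by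
  rw [mem_varsIdeal_iff]
  constructor
  · intro h
    rw [← MvPowerSeries.coeff_zero_eq_constantCoeff_apply]
    exact h 0 (fun i _ => rfl)
  · intro h m hm
    have : m = 0 := by
      ext i
      exact hm i i.isLt
    rw [this, MvPowerSeries.coeff_zero_eq_constantCoeff_apply, h]

theorem mem_varsIdeal_of_X_mul_mem {𝒪 : Type} [CommRing 𝒪] {r j : ℕ} (hj : j < r)
    (f : MvPowerSeries (Fin r) 𝒪)
    (h : MvPowerSeries.X (⟨j, hj⟩ : Fin r) * f ∈ varsIdeal 𝒪 r j) : f ∈ varsIdeal 𝒪 r j := by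
  rw [mem_varsIdeal_iff] at h ⊢
  intro m hm
  have h1 := h (Finsupp.single (⟨j, hj⟩ : Fin r) 1 + m) (by
    intro i hi
    have hne : (⟨j, hj⟩ : Fin r) ≠ i := by
      intro heq
      rw [← heq] at hi
      exact lt_irrefl _ hi
    rw [Finsupp.add_apply, Finsupp.single_apply, if_neg hne, hm i hi])
  rw [MvPowerSeries.X_def, MvPowerSeries.coeff_add_monomial_mul, one_mul] at h1
  exact h1

theorem mem_varsIdeal_of_C_mul_mem {𝒪 : Type} [CommRing 𝒪] {r : ℕ} (ϖ : 𝒪)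
    (hϖ : ∀ a : 𝒪, ϖ * a = 0 → a = 0) (f : MvPowerSeries (Fin r) 𝒪)
    (h : MvPowerSeries.C ϖ * f ∈ varsIdeal 𝒪 r r) : f ∈ varsIdeal 𝒪 r r := by
  rw [mem_varsIdeal_top_iff] at h ⊢
  rw [map_mul, MvPowerSeries.constantCoeff_C] at h
  exact hϖ _ h

theorem ofList_take_regSeq {𝒪 : Type} [CommRing 𝒪] (r : ℕ) (ϖ : 𝒪) (i : ℕ) (hi : i ≤ r) :
    Ideal.ofList ((regSeq r ϖ).take i) = varsIdeal 𝒪 r i := by
  unfold Ideal.ofList varsIdeal
  congr 1
  ext g
  simp only [Set.mem_ofPred_eq]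
  have hlen : (List.ofFn fun i : Fin r => (MvPowerSeries.X i : MvPowerSeries (Fin r) 𝒪)).length
      = r := by simp
  have htake : (regSeq r ϖ).take i =
      (List.ofFn fun i : Fin r => (MvPowerSeries.X i : MvPowerSeries (Fin r) 𝒪)).take i := by
    unfold regSeq
    rw [List.take_append_of_le_length (by rw [hlen]; exact hi)]
  rw [htake, List.mem_iff_getElem]
  constructor
  · rintro ⟨n, hn, rfl⟩
    rw [List.length_take, hlen] at hn
    have hn' : n < i := lt_of_lt_of_le hn (min_le_left _ _)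
    refine ⟨⟨n, lt_of_lt_of_le hn' hi⟩, hn', ?_⟩
    rw [List.getElem_take, List.getElem_ofFn]
  · rintro ⟨k, hk, rfl⟩
    refine ⟨k.val, ?_, ?_⟩
    · rw [List.length_take, hlen]
      exact lt_min hk k.isLt
    · rw [List.getElem_take, List.getElem_ofFn]

theorem ofList_ofFn_X {𝒪 : Type} [CommRing 𝒪] (r : ℕ) :
    Ideal.ofList (List.ofFn fun i : Fin r => (MvPowerSeries.X i : MvPowerSeries (Fin r) 𝒪)) =
      varsIdeal 𝒪 r r := by
  unfold Ideal.ofList varsIdeal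
  congr 1
  ext g
  simp only [Set.mem_ofPred_eq, List.mem_ofFn]
  constructor
  · rintro ⟨k, rfl⟩
    exact ⟨k, k.isLt, rfl⟩
  · rintro ⟨k, _, rfl⟩
    exact ⟨k, rfl⟩

theorem regSeq_isWeaklyRegular {𝒪 : Type} [CommRing 𝒪] (r : ℕ) (ϖ : 𝒪)
    (hϖ : ∀ a : 𝒪, ϖ * a = 0 → a = 0) :
    IsWeaklyRegular (MvPowerSeries (Fin r) 𝒪) (regSeq r ϖ) := by
  refine ⟨fun i hi => ?_⟩
  rw [regSeq_length] at hi
  have hi' : i ≤ r := Nat.lt_succ_iff.mp hi
  rw [isSMulRegular_quotient_iff_mem_of_smul_mem]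
  intro f hf
  rw [smul_eq_mul, Ideal.mul_top, ofList_take_regSeq r ϖ i hi'] at hf ⊢
  rw [smul_eq_mul] at hf
  rcases Nat.lt_or_ge i r with hlt | hge
  · have hget : (regSeq r ϖ)[i]'(by rw [regSeq_length]; exact hi) =
        MvPowerSeries.X (⟨i, hlt⟩ : Fin r) := by
      unfold regSeq
      rw [List.getElem_append_left (by simpa using hlt), List.getElem_ofFn]
    rw [hget] at hf
    exact mem_varsIdeal_of_X_mul_mem hlt f hf
  · have hir : i = r := le_antisymm hi' hge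
    subst hir
    have hget : (regSeq i ϖ)[i]'(by rw [regSeq_length]; exact hi) = MvPowerSeries.C ϖ := by
      unfold regSeq
      rw [List.getElem_append_right (by simp)]
      simp
    rw [hget] at hf
    exact mem_varsIdeal_of_C_mul_mem ϖ hϖ f hf

theorem ofList_regSeq_eq {𝒪 : Type} [CommRing 𝒪] (r : ℕ) (ϖ : 𝒪) :
    Ideal.ofList (regSeq r ϖ) = varsIdeal 𝒪 r r ⊔ Ideal.span {MvPowerSeries.C ϖ} := by
  unfold regSeq
  rw [Ideal.ofList_append, ofList_ofFn_X, Ideal.ofList_singleton]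

theorem mem_ofList_regSeq_iff {𝒪 : Type} [CommRing 𝒪] (r : ℕ) (ϖ : 𝒪)
    (f : MvPowerSeries (Fin r) 𝒪) :
    f ∈ Ideal.ofList (regSeq r ϖ) ↔ MvPowerSeries.constantCoeff f ∈ Ideal.span {ϖ} := by
  rw [ofList_regSeq_eq, Ideal.mem_span_singleton]
  constructor
  · intro hf
    obtain ⟨g, hg, h, hh, rfl⟩ := Submodule.mem_sup.mp hf
    rw [mem_varsIdeal_top_iff] at hg
    obtain ⟨c, rfl⟩ := Ideal.mem_span_singleton.mp hh
    rw [map_add, hg, zero_add, map_mul, MvPowerSeries.constantCoeff_C]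
    exact Dvd.intro _ rfl
  · rintro ⟨a, ha⟩
    have h1 : f - MvPowerSeries.C (MvPowerSeries.constantCoeff f) ∈ varsIdeal 𝒪 r r := by
      rw [mem_varsIdeal_top_iff, map_sub, MvPowerSeries.constantCoeff_C, sub_self]
    have h2 : MvPowerSeries.C (MvPowerSeries.constantCoeff f) ∈
        Ideal.span {(MvPowerSeries.C ϖ : MvPowerSeries (Fin r) 𝒪)} := by
      rw [ha, map_mul]
      exact Ideal.mul_mem_right _ _ (Ideal.subset_span rfl)
    have : f = (f - MvPowerSeries.C (MvPowerSeries.constantCoeff f)) +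
        MvPowerSeries.C (MvPowerSeries.constantCoeff f) := by ring
    rw [this]
    exact Submodule.add_mem_sup h1 h2

theorem ofList_regSeq {𝒪 : Type} [CommRing 𝒪] [IsLocalRing 𝒪] (r : ℕ) (ϖ : 𝒪)
    (hϖ : IsLocalRing.maximalIdeal 𝒪 = Ideal.span {ϖ}) :
    Ideal.ofList (regSeq r ϖ) = IsLocalRing.maximalIdeal (MvPowerSeries (Fin r) 𝒪) := by
  ext f
  rw [mem_ofList_regSeq_iff, ← hϖ, IsLocalRing.mem_maximalIdeal, IsLocalRing.mem_maximalIdeal,
    mem_nonunits_iff, mem_nonunits_iff, MvPowerSeries.isUnit_iff_constantCoeff]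

theorem regSeq_isRegular {𝒪 : Type} [CommRing 𝒪] [IsLocalRing 𝒪] (r : ℕ) (ϖ : 𝒪)
    (hreg : ∀ a : 𝒪, ϖ * a = 0 → a = 0)
    (hϖ : IsLocalRing.maximalIdeal 𝒪 = Ideal.span {ϖ}) :
    IsRegular (MvPowerSeries (Fin r) 𝒪) (regSeq r ϖ) := by
  refine ⟨regSeq_isWeaklyRegular r ϖ hreg, ?_⟩
  rw [smul_eq_mul, Ideal.mul_top, ofList_regSeq r ϖ hϖ]
  exact (IsLocalRing.maximalIdeal.isMaximal _).ne_top.symm

/-- Packaged for a DVR: there is a regular sequence of length `r+1` generating the maximal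
ideal of `𝒪⟦X_0,…,X_{r-1}⟧`. -/
theorem exists_regSeq {𝒪 : Type} [CommRing 𝒪] [IsDomain 𝒪] [IsDiscreteValuationRing 𝒪] (r : ℕ) :
    ∃ rs : List (MvPowerSeries (Fin r) 𝒪), rs.length = r + 1 ∧
      IsRegular (MvPowerSeries (Fin r) 𝒪) rs ∧
      Ideal.ofList rs = IsLocalRing.maximalIdeal (MvPowerSeries (Fin r) 𝒪) ∧
      ∃ ϖ : 𝒪, Irreducible ϖ ∧ rs = regSeq r ϖ := by
  obtain ⟨ϖ, hirr⟩ := IsDiscreteValuationRing.exists_irreducible 𝒪
  have hmax : IsLocalRing.maximalIdeal 𝒪 = Ideal.span {ϖ} := hirr.maximalIdeal_eq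
  have hreg : ∀ a : 𝒪, ϖ * a = 0 → a = 0 := fun a ha =>
    (mul_eq_zero.mp ha).resolve_left hirr.ne_zero
  exact ⟨regSeq r ϖ, regSeq_length r ϖ, regSeq_isRegular r ϖ hreg hmax,
    ofList_regSeq r ϖ hmax, ϖ, hirr, rfl⟩

end Fermat.Agent.S57
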